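/-
S56 / GW-WALL layer 3c, leaf UR-COUNT (helper431): `dim H¹_ur(D_P, ad⁰ρ̄) ≤ h⁰(D_P, ad⁰ρ̄)`.

Immediate from helper606's LOC-MIN-B (`H606.locMinB`): a cocycle vanishing on the inertia group
is in particular a coboundary there.
-/
import Fermat.Agent.S56.H716.GWSpec3
import Fermat.Agent.S56.H606.LocMin

set_option autoImplicit false

open Polynomial IsLocalRing

namespace Fermat.Agent.S56.H431

open Fermat.Agent.S56 Fermat.Agent.S56.H716

/-- **UR-COUNT**: the frozen leaf `H716.UrCountStatement`. -/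
theorem urCount : UrCountStatement := by
  intro 𝒪 _ _ _ _ _ p ρbar S Smin _ v hv _ P hP
  obtain ⟨Λ, hfin, hrk, hΛ⟩ := H606.locMinB (ResidueField 𝒪) ρbar v hv P hP
  refine ⟨Λ, hfin, hrk, fun c hc hur => hΛ c hc ⟨0, fun σ hσ => ?_⟩⟩
  rw [hur P hP σ hσ, mul_zero, zero_mul, sub_zero]

end Fermat.Agent.S56.H431
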